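/-
Lib item 57 (general p), helper46: values of the division polynomials `ψₙ` at a point of the
curve, in terms of the univariate polynomials `preΨ'` and `Ψ₂Sq`.
-/
import Mathlib.AlgebraicGeometry.EllipticCurve.DivisionPolynomial.Degree
import Mathlib.AlgebraicGeometry.EllipticCurve.Affine.Point

set_option autoImplicit false

namespace Fermat.Agent.Lib.TorsionGen

open WeierstrassCurve Polynomial

variable {K : Type*} [Field K] (W : WeierstrassCurve.Affine K)

lemma evalEval_ψ₂ (x y : K) : (W.ψ₂).evalEval x y = y - W.negY x y := by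
  rw [WeierstrassCurve.ψ₂, Affine.evalEval_polynomialY, Affine.negY]; ring

lemma evalEval_ψ₂_sq {x y : K} (h : W.Equation x y) :
    ((W.ψ₂).evalEval x y) ^ 2 = W.Ψ₂Sq.eval x := by
  have h1 := congrArg (Polynomial.evalEval x y) W.ψ₂_sq
  rw [evalEval_pow, evalEval_add, evalEval_mul, evalEval_C] at h1
  have h2 : (W.toAffine.polynomial).evalEval x y = 0 := h
  rw [h1, h2, mul_zero, add_zero]

/-- The value of `ψₙ` at a point of the curve. -/
lemma evalEval_ψ_natCast {x y : K} (h : W.Equation x y) (n : ℕ) :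
    (W.ψ (n : ℤ)).evalEval x y =
      (W.preΨ' n).eval x * (if Even n then (W.ψ₂).evalEval x y else 1) := by
  have h1 : (W.ψ (n : ℤ)).evalEval x y =
      normEDS (W.ψ₂.evalEval x y) (W.Ψ₃.eval x) (W.preΨ₄.eval x) n := by
    have := map_normEDS (evalEvalRingHom x y) (b := W.ψ₂) (c := C W.Ψ₃) (d := C W.preΨ₄) (n : ℤ)
    simpa [WeierstrassCurve.ψ] using this
  have h2 : (W.preΨ' n).eval x =
      preNormEDS' ((W.Ψ₂Sq.eval x) ^ 2) (W.Ψ₃.eval x) (W.preΨ₄.eval x) n := by
    have := map_preNormEDS' (evalRingHom x) (b := W.Ψ₂Sq ^ 2) (c := W.Ψ₃) (d := W.preΨ₄) n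
    rw [WeierstrassCurve.preΨ']
    rw [coe_evalRingHom, eval_pow] at this
    exact this
  rw [h1, normEDS_ofNat, h2, ← evalEval_ψ₂_sq W h, ← pow_mul]

end Fermat.Agent.Lib.TorsionGen
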