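/-
Lib item 57 (general p), helper46, part P5: Ward's zero structure for sequences satisfying the
elliptic relations `ER(m, n, 1)`.  Pure algebra, no curve.
-/
import Mathlib.Algebra.Field.Basic
import Mathlib.Algebra.Order.Ring.Nat
import Mathlib.Tactic.LinearCombination
import Mathlib.Tactic.Ring
import Mathlib.Tactic.Linarith
import Mathlib.Data.Nat.ModEq

set_option autoImplicit false

namespace Fermat.Agent.Lib.TorsionGen

variable {K : Type*} [Field K]

/-- The elliptic relations `ER(m, n, 1)` for a sequence indexed by `ℕ`: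
`w (m+n) w (m-n) = w (m+1) w (m-1) w n ^ 2 - w (n+1) w (n-1) w m ^ 2` for `m > n ≥ 1`. -/
def IsER1 (w : ℕ → K) : Prop :=
  ∀ m n : ℕ, 1 ≤ n → n < m →
    w (m + n) * w (m - n) = w (m + 1) * w (m - 1) * w n ^ 2 - w (n + 1) * w (n - 1) * w m ^ 2

/-- No two consecutive zeros at the first zero `d ≥ 4`. -/
theorem IsER1.succ_ne_zero {w : ℕ → K} (hER : IsER1 w) (h1 : w 1 ≠ 0) {d : ℕ} (hd : 4 ≤ d)
    (hwd : w d = 0) (hmin : ∀ k, 1 ≤ k → k < d → w k ≠ 0) : w (d + 1) ≠ 0 := by
  have h := hER (d - 1) 2 (by norm_num) (by omega)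
  have e1 : d - 1 + 2 = d + 1 := by omega
  have e2 : d - 1 + 1 = d := by omega
  have e3 : d - 1 - 1 = d - 2 := by omega
  have e4 : d - 1 - 2 = d - 3 := by omega
  rw [e1, e2, e3, e4, hwd] at h
  have h3 : w 3 ≠ 0 := hmin 3 (by norm_num) (by omega)
  have hd1 : w (d - 1) ≠ 0 := hmin (d - 1) (by omega) (by omega)
  intro h0
  rw [h0] at h
  have : w (2 + 1) * w (2 - 1) * w (d - 1) ^ 2 = 0 := by linear_combination h
  have h21 : (2 : ℕ) + 1 = 3 := rfl
  have h22 : (2 : ℕ) - 1 = 1 := rfl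
  rw [h21, h22] at this
  exact mul_ne_zero (mul_ne_zero h3 h1) (pow_ne_zero 2 hd1) this

/-- Ward's zero structure: if `d ≥ 2` is the first zero of `w` and `w (d+1) ≠ 0`, then every zero
of `w` is a multiple of `d`. -/
theorem IsER1.dvd_of_eq_zero {w : ℕ → K} (hER : IsER1 w) {d : ℕ} (hd : 2 ≤ d)
    (hwd : w d = 0) (hmin : ∀ k, 1 ≤ k → k < d → w k ≠ 0) (hd1 : w (d + 1) ≠ 0)
    {n : ℕ} (hn : w n = 0) : d ∣ n := by
  have hdm1 : w (d - 1) ≠ 0 := hmin (d - 1) (by omega) (by omega)
  -- step 1: `w (d + r) ≠ 0` for `0 < r < d`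
  have step1 : ∀ r, 1 ≤ r → r < d → w (d + r) ≠ 0 := by
    intro r hr1 hrd h0
    have h := hER d r hr1 hrd
    rw [h0, hwd] at h
    have : w (d + 1) * w (d - 1) * w r ^ 2 = 0 := by linear_combination -h
    exact mul_ne_zero (mul_ne_zero hd1 hdm1) (pow_ne_zero 2 (hmin r hr1 hrd)) this
  -- step 2: `w m ≠ 0`, `m > d` implies `w (m + d) ≠ 0`
  have step2 : ∀ m, d < m → w m ≠ 0 → w (m + d) ≠ 0 := by
    intro m hm hwm h0
    have h := hER m d (by omega) hm
    rw [h0, hwd] at h
    have : w (d + 1) * w (d - 1) * w m ^ 2 = 0 := by linear_combination h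
    exact mul_ne_zero (mul_ne_zero hd1 hdm1) (pow_ne_zero 2 hwm) this
  -- induction
  have key : ∀ k r, 1 ≤ r → r < d → w (k * d + r) ≠ 0 := by
    intro k
    induction k using Nat.strong_induction_on with
    | _ k ih =>
      intro r hr1 hrd
      rcases k with _ | _ | k
      · simpa using hmin r hr1 hrd
      · simpa using step1 r hr1 hrd
      · have h1 := ih (k + 1) (by omega) r hr1 hrd
        have h2 := step2 ((k + 1) * d + r) (by nlinarith) h1
        have e : (k + 1) * d + r + d = (k + 1 + 1) * d + r := by ring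
        rw [e] at h2
        exact h2
  by_contra hdn
  have hr : 1 ≤ n % d := by
    rcases Nat.eq_zero_or_pos (n % d) with h | h
    · exact absurd (Nat.dvd_of_mod_eq_zero h) hdn
    · exact h
  have := key (n / d) (n % d) hr (Nat.mod_lt n (by omega))
  rw [Nat.div_add_mod'] at this
  exact this hn

end Fermat.Agent.Lib.TorsionGen
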