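/-
Lib item 57 (general p), helper46, part P4: the elliptic relations `ER(m, n, 1)` for the values
of the division polynomials hold at EVERY point of an elliptic curve over an algebraically closed
field of characteristic zero, given that they hold at the points of large order ("Theorem A").
-/
import Fermat.Agent.Lib.TorsionGen.Ward
import Fermat.Agent.Lib.TorsionGen.PsiVal
import Fermat.Agent.Lib.Torsion35.Card
import Mathlib.FieldTheory.IsAlgClosed.Basic

set_option autoImplicit false

namespace Fermat.Agent.Lib.TorsionGen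

open WeierstrassCurve WeierstrassCurve.Affine Polynomial

variable {K : Type*} [Field K] (W : WeierstrassCurve.Affine K)

/-- The value of `ψₙ` at `(x, y)`. -/
noncomputable def psiV (x y : K) (n : ℕ) : K := (W.ψ (n : ℤ)).evalEval x y

lemma psiV_eq {x y : K} (h : W.Equation x y) (n : ℕ) :
    psiV W x y n = (W.preΨ' n).eval x * (if Even n then (y - W.negY x y) else 1) := by
  rw [psiV, evalEval_ψ_natCast W h, evalEval_ψ₂]

@[simp] lemma psiV_zero (x y : K) : psiV W x y 0 = 0 := by simp [psiV]

@[simp] lemma psiV_one (x y : K) : psiV W x y 1 = 1 := by simp [psiV]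

lemma psiV_two (x y : K) : psiV W x y 2 = y - W.negY x y := by
  have : ((2 : ℕ) : ℤ) = 2 := rfl
  rw [psiV, this, WeierstrassCurve.ψ_two, evalEval_ψ₂]

lemma eval_Ψ₂Sq_eq_sq {x y : K} (h : W.Equation x y) :
    W.Ψ₂Sq.eval x = (y - W.negY x y) ^ 2 := by
  rw [← evalEval_ψ₂_sq W h, evalEval_ψ₂]

/-- Parity exponent. -/
def parE (k : ℕ) : ℕ := if Even k then 1 else 0

/-- The univariate polynomial whose value at `x(P)` is the defect of `ER(m, n, 1)` at `P`. -/
noncomputable def erPoly (m n : ℕ) : K[X] :=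
  W.preΨ' (m + n) * W.preΨ' (m - n) * W.Ψ₂Sq ^ parE (m + n)
  - W.preΨ' (m + 1) * W.preΨ' (m - 1) * W.preΨ' n ^ 2 * W.Ψ₂Sq ^ (parE (m + 1) + parE n)
  + W.preΨ' (n + 1) * W.preΨ' (n - 1) * W.preΨ' m ^ 2 * W.Ψ₂Sq ^ (parE (n + 1) + parE m)

lemma eval_erPoly {x y : K} (h : W.Equation x y) {m n : ℕ} (hn : 1 ≤ n) (hnm : n < m) :
    (erPoly W m n).eval x =
      psiV W x y (m + n) * psiV W x y (m - n)
      - psiV W x y (m + 1) * psiV W x y (m - 1) * psiV W x y n ^ 2
      + psiV W x y (n + 1) * psiV W x y (n - 1) * psiV W x y m ^ 2 := by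
  have e1 : Even (m + n) ↔ (Even m ↔ Even n) := Nat.even_add
  have e2 : Even (m - n) ↔ (Even m ↔ Even n) := Nat.even_sub hnm.le
  have e3 : Even (m + 1) ↔ ¬ Even m := Nat.even_add_one
  have e4 : Even (m - 1) ↔ ¬ Even m := by
    rw [Nat.even_sub (by omega)]; simp
  have e5 : Even (n + 1) ↔ ¬ Even n := Nat.even_add_one
  have e6 : Even (n - 1) ↔ ¬ Even n := by
    rw [Nat.even_sub (by omega)]; simp
  simp only [erPoly, eval_add, eval_sub, eval_mul, eval_pow, psiV_eq W h, eval_Ψ₂Sq_eq_sq W h,
    parE, e1, e2, e3, e4, e5, e6]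
  by_cases hm : Even m <;> by_cases hn' : Even n <;> simp [hm, hn'] <;> ring

variable [DecidableEq K]

/-- Interface ("Theorem A"): the values of the division polynomials at a point whose first
multiples do not vanish. -/
structure ThmA : Prop where
  ne_zero : ∀ (x y : K) (h : W.Nonsingular x y) (n : ℕ), 1 ≤ n →
    (∀ k, 1 ≤ k → k ≤ n → k • Point.some x y h ≠ 0) → psiV W x y n ≠ 0
  eq_zero : ∀ (x y : K) (h : W.Nonsingular x y) (n : ℕ), 2 ≤ n →
    (∀ k, 1 ≤ k → k < n → k • Point.some x y h ≠ 0) → n • Point.some x y h = 0 →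
    psiV W x y n = 0
  rel : ∀ (x y : K) (h : W.Nonsingular x y) (L m n : ℕ),
    (∀ k, 1 ≤ k → k ≤ L → k • Point.some x y h ≠ 0) → 1 ≤ n → n < m → m + n ≤ L + 1 →
    psiV W x y (m + n) * psiV W x y (m - n) =
      psiV W x y (m + 1) * psiV W x y (m - 1) * psiV W x y n ^ 2 -
        psiV W x y (n + 1) * psiV W x y (n - 1) * psiV W x y m ^ 2

variable {W}

/-- Density: the defect polynomial of `ER(m, n, 1)` vanishes identically. -/
theorem erPoly_eq_zero [IsAlgClosed K] [CharZero K] (hΔ : W.Δ ≠ 0) (hA : ThmA W) {m n : ℕ}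
    (hn : 1 ≤ n) (hnm : n < m) : erPoly W m n = 0 := by
  classical
  set L := m + n with hL
  set B : K[X] := ∏ k ∈ Finset.Icc 1 L, (W.preΨ' k * W.Ψ₂Sq) with hB
  have hB0 : B ≠ 0 := by
    rw [hB, Finset.prod_ne_zero_iff]
    intro k hk
    have hk1 : 1 ≤ k := (Finset.mem_Icc.mp hk).1
    have hk0 : (k : K) ≠ 0 := by exact_mod_cast (by omega : k ≠ 0)
    exact mul_ne_zero (W.preΨ'_ne_zero hk0) (W.Ψ₂Sq_ne_zero (by norm_num))
  have key : erPoly W m n * B = 0 := by
    apply Polynomial.funext
    intro x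
    rw [eval_mul, eval_zero]
    by_cases hx : B.eval x = 0
    · rw [hx, mul_zero]
    · have hne : ∀ k, 1 ≤ k → k ≤ L → (W.preΨ' k).eval x ≠ 0 ∧ W.Ψ₂Sq.eval x ≠ 0 := by
        intro k hk1 hkL
        rw [hB, eval_prod, Finset.prod_eq_zero_iff] at hx
        push Not at hx
        have := hx k (Finset.mem_Icc.mpr ⟨hk1, hkL⟩)
        rw [eval_mul] at this
        exact ⟨left_ne_zero_of_mul this, right_ne_zero_of_mul this⟩
      obtain ⟨y, hns, -⟩ := Torsion35.exists_point_of_x W hΔ x
      have heq : W.Equation x y := hns.1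
      have hpsi : ∀ k, 1 ≤ k → k ≤ L → psiV W x y k ≠ 0 := by
        intro k hk1 hkL
        rw [psiV_eq W heq]
        obtain ⟨h1, h2⟩ := hne k hk1 hkL
        rw [eval_Ψ₂Sq_eq_sq W heq] at h2
        have h3 : y - W.negY x y ≠ 0 := fun h0 => h2 (by rw [h0]; ring)
        split_ifs
        · exact mul_ne_zero h1 h3
        · simpa using h1
      have hgen : ∀ k, 1 ≤ k → k ≤ L → k • Point.some x y hns ≠ 0 := by
        intro k
        induction k using Nat.strong_induction_on with
        | _ k ih =>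
          intro hk1 hkL h0
          rcases Nat.lt_or_ge k 2 with hk2 | hk2
          · have : k = 1 := by omega
            subst this
            rw [one_nsmul] at h0
            exact Point.some_ne_zero _ h0
          · exact hpsi k hk1 hkL
              (hA.eq_zero x y hns k hk2 (fun j hj1 hjk => ih j hjk hj1 (by omega)) h0)
      have := hA.rel x y hns L m n hgen hn hnm (by omega)
      rw [eval_erPoly W heq hn hnm, this]; ring
  exact (mul_eq_zero.mp key).resolve_right hB0

/-- **P4**: the elliptic relations `ER(m, n, 1)` hold at every point of the curve. -/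
theorem isER1_psiV [IsAlgClosed K] [CharZero K] (hΔ : W.Δ ≠ 0) (hA : ThmA W) {x y : K}
    (h : W.Equation x y) : IsER1 (psiV W x y) := by
  intro m n hn hnm
  have := eval_erPoly W h hn hnm
  rw [erPoly_eq_zero hΔ hA hn hnm, eval_zero] at this
  linear_combination -this

end Fermat.Agent.Lib.TorsionGen
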