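/-
Lib item 57 (general p), helper46, part P6: for an elliptic curve over an algebraically closed
field of characteristic zero and an odd prime `p`:  `p • P = 0 ↔ preΨ'_p (x(P)) = 0`,
given "Theorem A" (`ThmA`, the interface of `Density.lean`).
-/
import Fermat.Agent.Lib.TorsionGen.Density
import Mathlib.GroupTheory.OrderOfElement

set_option autoImplicit false

namespace Fermat.Agent.Lib.TorsionGen

open WeierstrassCurve WeierstrassCurve.Affine Polynomial

variable {K : Type*} [Field K] {W : WeierstrassCurve.Affine K}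

lemma psiV_three (x y : K) : psiV W x y 3 = Torsion35.vP3 W x := by
  have : ((3 : ℕ) : ℤ) = 3 := rfl
  rw [psiV, this, WeierstrassCurve.ψ_three, evalEval_C, Torsion35.eval_Ψ₃]

lemma psiV_four (x y : K) : psiV W x y 4 = Torsion35.vQ4 W x * (y - W.negY x y) := by
  have : ((4 : ℕ) : ℤ) = 4 := rfl
  rw [psiV, this, WeierstrassCurve.ψ_four, evalEval_mul, evalEval_C, Torsion35.eval_preΨ₄,
    evalEval_ψ₂]

lemma psiV_of_odd {x y : K} (h : W.Equation x y) {n : ℕ} (hn : ¬ Even n) :
    psiV W x y n = (W.preΨ' n).eval x := by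
  rw [psiV_eq W h, if_neg hn, mul_one]

/-- No two consecutive zeros at `2, 3`. -/
lemma psiV_three_ne_zero {x y : K} (h : W.Nonsingular x y) (h2 : psiV W x y 2 = 0) :
    psiV W x y 3 ≠ 0 := by
  intro h3
  rw [psiV_three] at h3
  rw [psiV_two] at h2
  exact Torsion35.psi2_ne_zero_of_vP3_eq_zero W h h3 (sub_eq_zero.mp h2)

/-- No two consecutive zeros at `3, 4`. -/
lemma psiV_four_ne_zero {x y : K} (h : W.Nonsingular x y) (h2 : psiV W x y 2 ≠ 0)
    (h3 : psiV W x y 3 = 0) : psiV W x y 4 ≠ 0 := by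
  rw [psiV_three] at h3
  rw [psiV_two] at h2
  rw [psiV_four]
  have hx₂ : x * Torsion35.vB W x = Torsion35.vA W x := by
    have := Torsion35.vP3_eq W x
    rw [h3] at this
    linear_combination -this
  have hB : Torsion35.vB W x ≠ 0 := by
    rw [← Torsion35.psi2_sq W h.1]
    exact pow_ne_zero 2 h2
  have hQ : Torsion35.vQ4 W x ^ 2 ≠ 0 := by
    rw [← Torsion35.vB_mul_of_eq W hx₂]
    exact mul_ne_zero hB (pow_ne_zero 3 hB)
  exact mul_ne_zero (fun h0 => hQ (by rw [h0]; ring)) h2

variable [DecidableEq K]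

/-- Multiples of a point below the first zero of `ψ` do not vanish. -/
lemma nsmul_ne_zero_of_psiV_ne_zero (hA : ThmA W) {x y : K} (h : W.Nonsingular x y) {d : ℕ}
    (hmin : ∀ k, 1 ≤ k → k < d → psiV W x y k ≠ 0) :
    ∀ k, 1 ≤ k → k < d → k • Point.some x y h ≠ 0 := by
  intro k
  induction k using Nat.strong_induction_on with
  | _ k ih =>
    intro hk1 hkd h0
    rcases Nat.lt_or_ge k 2 with hk2 | hk2
    · have : k = 1 := by omega
      subst this
      rw [one_nsmul] at h0
      exact Point.some_ne_zero _ h0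
    · exact hmin k hk1 hkd
        (hA.eq_zero x y h k hk2 (fun j hj1 hjk => ih j hjk hj1 (by omega)) h0)

/-- **P6**: for an odd prime `p`, `p • P = 0 ↔ preΨ'_p(x(P)) = 0`. -/
theorem prime_nsmul_eq_zero_iff [IsAlgClosed K] [CharZero K] (hΔ : W.Δ ≠ 0) (hA : ThmA W)
    {p : ℕ} (hp : p.Prime) (hp2 : p ≠ 2) {x y : K} (h : W.Nonsingular x y) :
    p • Point.some x y h = 0 ↔ (W.preΨ' p).eval x = 0 := by
  have hodd : ¬ Even p := by
    intro he
    exact hp2 ((Nat.Prime.even_iff hp).mp he)
  rw [← psiV_of_odd h.1 hodd]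
  have hP0 : Point.some x y h ≠ 0 := Point.some_ne_zero _
  constructor
  · intro h0
    refine hA.eq_zero x y h p hp.two_le ?_ h0
    intro k hk1 hkp hk0
    have h1 : addOrderOf (Point.some x y h) ∣ p := addOrderOf_dvd_of_nsmul_eq_zero h0
    have h2 : addOrderOf (Point.some x y h) ∣ k := addOrderOf_dvd_of_nsmul_eq_zero hk0
    rcases (Nat.dvd_prime hp).mp h1 with h3 | h3
    · exact hP0 (AddMonoid.addOrderOf_eq_one_iff.mp h3)
    · rw [h3] at h2
      exact absurd (Nat.le_of_dvd (by omega) h2) (by omega)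
  · intro hwp
    have hER : IsER1 (psiV W x y) := isER1_psiV hΔ hA h.1
    -- the first zero
    have hex : ∃ k, 1 ≤ k ∧ psiV W x y k = 0 := ⟨p, hp.one_lt.le, hwp⟩
    classical
    set d := Nat.find hex with hd
    obtain ⟨hd1, hwd⟩ : 1 ≤ d ∧ psiV W x y d = 0 := Nat.find_spec hex
    have hmin : ∀ k, 1 ≤ k → k < d → psiV W x y k ≠ 0 := by
      intro k hk1 hkd h0
      exact Nat.find_min hex hkd ⟨hk1, h0⟩
    have hd2 : 2 ≤ d := by
      rcases Nat.lt_or_ge d 2 with h' | h'
      · have : d = 1 := by omega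
        rw [this, psiV_one] at hwd
        exact absurd hwd one_ne_zero
      · exact h'
    have hsucc : psiV W x y (d + 1) ≠ 0 := by
      rcases Nat.lt_or_ge d 4 with h4 | h4
      · have : d = 2 ∨ d = 3 := by omega
        rcases this with h' | h'
        · rw [h'] at hwd ⊢
          exact psiV_three_ne_zero h hwd
        · rw [h'] at hwd hmin ⊢
          exact psiV_four_ne_zero h (hmin 2 (by norm_num) (by norm_num)) hwd
      · exact hER.succ_ne_zero (by simp) h4 hwd hmin
    have hdp : d ∣ p := hER.dvd_of_eq_zero hd2 hwd hmin hsucc hwp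
    have hdp' : d = p := by
      rcases (Nat.dvd_prime hp).mp hdp with h' | h'
      · omega
      · exact h'
    rw [hdp'] at hmin
    have hgen := nsmul_ne_zero_of_psiV_ne_zero hA h hmin
    by_contra hne
    refine hA.ne_zero x y h p hp.one_lt.le ?_ hwp
    intro k hk1 hkp
    rcases Nat.lt_or_ge k p with h' | h'
    · exact hgen k hk1 h'
    · have : k = p := by omega
      rw [this]
      exact hne

/-- The same, in the form used by `S13/TorsionDefs.lean` (`Stmt_torsion_preΨ`). -/
theorem prime_zsmul_eq_zero_iff [IsAlgClosed K] [CharZero K] (hΔ : W.Δ ≠ 0) (hA : ThmA W)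
    {p : ℕ} (hp : p.Prime) (hp2 : p ≠ 2) {x y : K} (h : W.Nonsingular x y) :
    (p : ℤ) • Point.some x y h = 0 ↔ (W.preΨ (p : ℤ)).eval x = 0 := by
  rw [natCast_zsmul, WeierstrassCurve.preΨ_ofNat]
  exact prime_nsmul_eq_zero_iff hΔ hA hp hp2 h

end Fermat.Agent.Lib.TorsionGen
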