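/-
Lib item 57 (general p), helper46: FINAL statement.  For an elliptic curve over an algebraically
closed field of characteristic zero and an odd prime `p`:  `p • P = 0 ↔ preΨ_p (x(P)) = 0`.
Glue of "Theorem A" (helper11, `Lib/Torsion/H11_Order.lean`) with `TorsionGen/Main.lean`.
-/
import Fermat.Agent.Lib.TorsionGen.Main
import Fermat.Agent.Lib.Torsion.H11_Order

set_option autoImplicit false

namespace Fermat.Agent.Lib.TorsionGen

open WeierstrassCurve WeierstrassCurve.Affine Polynomial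

variable {K : Type*} [Field K] (W : WeierstrassCurve.Affine K) [DecidableEq K]

/-- "Theorem A" holds (helper11). -/
theorem thmA : ThmA W where
  ne_zero := fun _ _ h n hn hM => Torsion.H11.psi_ne_zero W h n hn hM
  eq_zero := fun _ _ h n hn hM h0 => Torsion.H11.psi_eq_zero W h n hn hM h0
  rel := fun _ _ h L m n hL hn hnm hmn => Torsion.H11.psi_net_rel W h L m n hL hn hnm hmn

variable {W}

/-- `p • P = 0 ↔ preΨ'_p(x(P)) = 0` for an odd prime `p`. -/
theorem prime_nsmul_eq_zero_iff_eval [IsAlgClosed K] [CharZero K] (hΔ : W.Δ ≠ 0)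
    {p : ℕ} (hp : p.Prime) (hp2 : p ≠ 2) {x y : K} (h : W.Nonsingular x y) :
    p • Point.some x y h = 0 ↔ (W.preΨ' p).eval x = 0 :=
  prime_nsmul_eq_zero_iff hΔ (thmA W) hp hp2 h

/-- `(p : ℤ) • P = 0 ↔ preΨ_p(x(P)) = 0` for an odd prime `p`
(this is `Stmt_torsion_preΨ` of `S13/TorsionDefs.lean`). -/
theorem prime_zsmul_eq_zero_iff_eval [IsAlgClosed K] [CharZero K] (hΔ : W.Δ ≠ 0)
    {p : ℕ} (hp : p.Prime) (hp2 : p ≠ 2) {x y : K} (h : W.Nonsingular x y) :
    (p : ℤ) • Point.some x y h = 0 ↔ (W.preΨ (p : ℤ)).eval x = 0 :=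
  prime_zsmul_eq_zero_iff hΔ (thmA W) hp hp2 h

end Fermat.Agent.Lib.TorsionGen
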