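/-
Lib item 57, helper46: the elliptic relations `ER(m, n, 1)` between the division polynomials hold
UNIVERSALLY (over every commutative ring, for every Weierstrass curve, also singular ones):
they hold over `ℚ̄` for `Δ ≠ 0` (`Density.lean` + Theorem A), hence for the universal curve over
`ℤ[a₁, a₂, a₃, a₄, a₆]`, hence everywhere by base change.
-/
import Fermat.Agent.Lib.TorsionGen.Final
import Mathlib.Algebra.MvPolynomial.Funext
import Mathlib.FieldTheory.IsAlgClosed.AlgebraicClosure
import Mathlib.Algebra.MvPolynomial.CommRing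

set_option autoImplicit false

namespace Fermat.Agent.Lib.TorsionGen

open WeierstrassCurve Polynomial

section CommRing

variable {R S : Type*} [CommRing R] [CommRing S]

/-- The defect polynomial of `ER(m, n, 1)` over a commutative ring. -/
noncomputable def erPolyR (W : WeierstrassCurve R) (m n : ℕ) : R[X] :=
  W.preΨ' (m + n) * W.preΨ' (m - n) * W.Ψ₂Sq ^ parE (m + n)
  - W.preΨ' (m + 1) * W.preΨ' (m - 1) * W.preΨ' n ^ 2 * W.Ψ₂Sq ^ (parE (m + 1) + parE n)
  + W.preΨ' (n + 1) * W.preΨ' (n - 1) * W.preΨ' m ^ 2 * W.Ψ₂Sq ^ (parE (n + 1) + parE m)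

lemma map_erPolyR (W : WeierstrassCurve R) (f : R →+* S) (m n : ℕ) :
    erPolyR (W.map f) m n = (erPolyR W m n).map f := by
  simp only [erPolyR, map_preΨ', map_Ψ₂Sq, Polynomial.map_add, Polynomial.map_sub,
    Polynomial.map_mul, Polynomial.map_pow]

end CommRing

lemma erPoly_eq_erPolyR {K : Type*} [Field K] (W : WeierstrassCurve.Affine K) (m n : ℕ) :
    erPoly W m n = erPolyR W m n := rfl

/-- The universal Weierstrass curve over `ℤ[a₁, a₂, a₃, a₄, a₆]`. -/
noncomputable def univCurve : WeierstrassCurve (MvPolynomial (Fin 5) ℤ) :=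
  ⟨MvPolynomial.X 0, MvPolynomial.X 1, MvPolynomial.X 2, MvPolynomial.X 3, MvPolynomial.X 4⟩

/-- The classifying homomorphism of a Weierstrass curve. -/
noncomputable def classHom {R : Type*} [CommRing R] (W : WeierstrassCurve R) :
    MvPolynomial (Fin 5) ℤ →+* R :=
  MvPolynomial.eval₂Hom (Int.castRingHom R) ![W.a₁, W.a₂, W.a₃, W.a₄, W.a₆]

lemma univCurve_map {R : Type*} [CommRing R] (W : WeierstrassCurve R) :
    univCurve.map (classHom W) = W := by
  ext <;> simp [univCurve, classHom, WeierstrassCurve.map]

lemma univCurve_Δ_ne_zero : univCurve.Δ ≠ 0 := by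
  intro h
  -- evaluate at the curve `y² = x³ - x`
  let W₀ : WeierstrassCurve ℤ := ⟨0, 0, 0, -1, 0⟩
  have h1 : (univCurve.map (classHom W₀)).Δ = classHom W₀ univCurve.Δ := map_Δ _ _
  rw [univCurve_map, h, map_zero] at h1
  have : W₀.Δ = 64 := by
    simp [W₀, WeierstrassCurve.Δ, WeierstrassCurve.b₂, WeierstrassCurve.b₄, WeierstrassCurve.b₆,
      WeierstrassCurve.b₈]
  rw [this] at h1
  norm_num at h1

/-- The elliptic relations hold for the universal curve. -/
theorem erPolyR_univCurve {m n : ℕ} (hn : 1 ≤ n) (hnm : n < m) : erPolyR univCurve m n = 0 := by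
  classical
  apply Polynomial.ext
  intro i
  rw [coeff_zero]
  set c := (erPolyR univCurve m n).coeff i with hc
  have hcΔ : c * univCurve.Δ = 0 := by
    apply MvPolynomial.funext
    intro a
    rw [map_zero, map_mul]
    -- the curve over `ℚ̄` attached to `a`
    let g : MvPolynomial (Fin 5) ℤ →+* AlgebraicClosure ℚ :=
      (Int.castRingHom (AlgebraicClosure ℚ)).comp (MvPolynomial.eval a)
    have hinj : Function.Injective (Int.castRingHom (AlgebraicClosure ℚ)) :=
      RingHom.injective_int _
    let Wa : WeierstrassCurve.Affine (AlgebraicClosure ℚ) := univCurve.map g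
    by_cases hΔ : Wa.Δ = 0
    · have h1 : Wa.Δ = g univCurve.Δ := map_Δ _ _
      rw [hΔ] at h1
      have h2 : MvPolynomial.eval a univCurve.Δ = 0 := by
        apply hinj
        rw [map_zero]
        exact h1.symm
      rw [h2, mul_zero]
    · have h1 : erPoly Wa m n = 0 := erPoly_eq_zero hΔ (thmA Wa) hn hnm
      rw [erPoly_eq_erPolyR] at h1
      have h2 : erPolyR Wa m n = (erPolyR univCurve m n).map g := map_erPolyR _ _ _ _
      rw [h1] at h2
      have h3 : g c = 0 := by
        have := congrArg (fun p => p.coeff i) h2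
        simp only [coeff_zero, coeff_map] at this
        exact this.symm
      have h4 : MvPolynomial.eval a c = 0 := by
        apply hinj
        rw [map_zero]
        exact h3
      rw [h4, zero_mul]
  exact (mul_eq_zero.mp hcΔ).resolve_right univCurve_Δ_ne_zero

/-- **Universal elliptic relations**: over every commutative ring, for every Weierstrass curve. -/
theorem erPolyR_eq_zero {R : Type*} [CommRing R] (W : WeierstrassCurve R) {m n : ℕ} (hn : 1 ≤ n)
    (hnm : n < m) : erPolyR W m n = 0 := by
  rw [← univCurve_map W, map_erPolyR, erPolyR_univCurve hn hnm, Polynomial.map_zero]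

/-- The elliptic relations `ER(m, n, 1)` hold at every point of every Weierstrass curve over every
field. -/
theorem isER1_psiV_univ {K : Type*} [Field K] (W : WeierstrassCurve.Affine K) {x y : K}
    (h : W.Equation x y) : IsER1 (psiV W x y) := by
  intro m n hn hnm
  have := eval_erPoly W h hn hnm
  rw [erPoly_eq_erPolyR, erPolyR_eq_zero W hn hnm, eval_zero] at this
  linear_combination -this

end Fermat.Agent.Lib.TorsionGen
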