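/-
Lib item 57, helper46: GENERAL form, any field (any characteristic), any Weierstrass curve (also
singular), any nonsingular point `P = (x, y)`, any `n`:
  `n • P = 0 ↔ ψₙ(P) = 0 ↔ ΨSqₙ(x(P)) = 0`.
-/
import Fermat.Agent.Lib.TorsionGen.Universal

set_option autoImplicit false

namespace Fermat.Agent.Lib.TorsionGen

open WeierstrassCurve WeierstrassCurve.Affine Polynomial

section Ward

variable {K : Type*} [Field K]

/-- Nonvanishing off the multiples of the first zero (restated from `IsER1.dvd_of_eq_zero`). -/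
lemma IsER1.ne_zero_of_not_dvd {w : ℕ → K} (hER : IsER1 w) {d : ℕ} (hd : 2 ≤ d)
    (hwd : w d = 0) (hmin : ∀ k, 1 ≤ k → k < d → w k ≠ 0) (hd1 : w (d + 1) ≠ 0)
    {n : ℕ} (hn : ¬ d ∣ n) : w n ≠ 0 :=
  fun h => hn (hER.dvd_of_eq_zero hd hwd hmin hd1 h)

/-- Converse of Ward's zero structure: the multiples of the first zero `d ≥ 3` are zeros. -/
theorem IsER1.eq_zero_of_dvd {w : ℕ → K} (hER : IsER1 w) (h0 : w 0 = 0) {d : ℕ} (hd : 3 ≤ d)
    (hwd : w d = 0) (hmin : ∀ k, 1 ≤ k → k < d → w k ≠ 0) (hd1 : w (d + 1) ≠ 0)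
    {n : ℕ} (hn : d ∣ n) : w n = 0 := by
  obtain ⟨k, rfl⟩ := hn
  induction k using Nat.strong_induction_on with
  | _ k ih =>
    rcases k with _ | _ | k
    · simpa using h0
    · simpa using hwd
    · -- `w ((k+2) d) w (k d + 2) = 0` from `ER((k+1) d + 1, d - 1)`
      have hk1 : w (d * (k + 1)) = 0 := ih (k + 1) (by omega)
      have hlt : d - 1 < d * (k + 1) + 1 := by
        have : d * (k + 1) = d * k + d := by ring
        omega
      have h := hER (d * (k + 1) + 1) (d - 1) (by omega) hlt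
      have e1 : d * (k + 1) + 1 + (d - 1) = d * (k + 1 + 1) := by
        have : d * (k + 1 + 1) = d * (k + 1) + d := by ring
        omega
      have e2 : d * (k + 1) + 1 - (d - 1) = d * k + 2 := by
        have : d * (k + 1) = d * k + d := by ring
        omega
      have e3 : d * (k + 1) + 1 - 1 = d * (k + 1) := by omega
      have e4 : d - 1 + 1 = d := by omega
      rw [e1, e2, e3, e4, hk1, hwd] at h
      have hne : w (d * k + 2) ≠ 0 := by
        apply hER.ne_zero_of_not_dvd (by omega) hwd hmin hd1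
        intro hdvd
        have : d ∣ 2 := by
          have h' : d ∣ d * k := dvd_mul_right d k
          exact (Nat.dvd_add_right h').mp hdvd
        have := Nat.le_of_dvd (by norm_num) this
        omega
      have : w (d * (k + 1 + 1)) * w (d * k + 2) = 0 := by linear_combination h
      exact (mul_eq_zero.mp this).resolve_right hne

end Ward

variable {K : Type*} [Field K] {W : WeierstrassCurve.Affine K}

/-- `ψ_{2k}(P) = 0` if `ψ₂(P) = 0`. -/
lemma psiV_even_eq_zero {x y : K} (h : W.Equation x y) (h2 : psiV W x y 2 = 0) {n : ℕ}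
    (hn : 2 ∣ n) : psiV W x y n = 0 := by
  rw [psiV_two] at h2
  rw [psiV_eq W h, if_pos (even_iff_two_dvd.mpr hn), h2, mul_zero]

/-- `ΨSqₙ(x) = ψₙ(P)²` on the curve. -/
lemma eval_ΨSq_eq_psiV_sq {x y : K} (h : W.Equation x y) (n : ℕ) :
    (W.ΨSq (n : ℤ)).eval x = psiV W x y n ^ 2 := by
  rw [WeierstrassCurve.ΨSq_ofNat, psiV_eq W h, eval_mul, eval_pow]
  split_ifs
  · rw [eval_Ψ₂Sq_eq_sq W h]; ring
  · simp

/-- The structure of the zeros of `n ↦ ψₙ(P)`: if `d` is the first zero then `ψₙ(P) = 0 ↔ d ∣ n`. -/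
theorem psiV_eq_zero_iff_dvd {x y : K} (h : W.Nonsingular x y) {d : ℕ} (hd1 : 1 ≤ d)
    (hwd : psiV W x y d = 0) (hmin : ∀ k, 1 ≤ k → k < d → psiV W x y k ≠ 0) (n : ℕ) :
    psiV W x y n = 0 ↔ d ∣ n := by
  have hER : IsER1 (psiV W x y) := isER1_psiV_univ W h.1
  have hd2 : 2 ≤ d := by
    rcases Nat.lt_or_ge d 2 with h' | h'
    · have : d = 1 := by omega
      rw [this, psiV_one] at hwd
      exact absurd hwd one_ne_zero
    · exact h'
  have hsucc : psiV W x y (d + 1) ≠ 0 := by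
    rcases Nat.lt_or_ge d 4 with h4 | h4
    · have : d = 2 ∨ d = 3 := by omega
      rcases this with h' | h'
      · rw [h'] at hwd ⊢
        exact psiV_three_ne_zero h hwd
      · rw [h'] at hwd hmin ⊢
        exact psiV_four_ne_zero h (hmin 2 (by norm_num) (by norm_num)) hwd
    · exact hER.succ_ne_zero (by simp) h4 hwd hmin
  constructor
  · exact fun hn => hER.dvd_of_eq_zero hd2 hwd hmin hsucc hn
  · intro hn
    rcases Nat.lt_or_ge d 3 with h3 | h3
    · have : d = 2 := by omega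
      rw [this] at hwd hn
      exact psiV_even_eq_zero h.1 hwd hn
    · exact hER.eq_zero_of_dvd (psiV_zero W x y) h3 hwd hmin hsucc hn

variable [DecidableEq K]

/-- **Item 57, general form**: `n • P = 0 ↔ ψₙ(P) = 0`, over any field, for any nonsingular
point of any Weierstrass curve. -/
theorem nsmul_eq_zero_iff_psiV {x y : K} (h : W.Nonsingular x y) (n : ℕ) :
    n • Point.some x y h = 0 ↔ psiV W x y n = 0 := by
  classical
  have hA : ThmA W := thmA W
  by_cases hex : ∃ k, 1 ≤ k ∧ psiV W x y k = 0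
  · -- there is a first zero `d`; it is the order of `P`
    set d := Nat.find hex with hd
    obtain ⟨hd1, hwd⟩ : 1 ≤ d ∧ psiV W x y d = 0 := Nat.find_spec hex
    have hmin : ∀ k, 1 ≤ k → k < d → psiV W x y k ≠ 0 :=
      fun k hk1 hkd h0 => Nat.find_min hex hkd ⟨hk1, h0⟩
    have hgen := nsmul_ne_zero_of_psiV_ne_zero hA h hmin
    have hdP : d • Point.some x y h = 0 := by
      by_contra hne
      refine hA.ne_zero x y h d hd1 ?_ hwd
      intro k hk1 hkd
      rcases Nat.lt_or_ge k d with h' | h'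
      · exact hgen k hk1 h'
      · have : k = d := by omega
        rw [this]; exact hne
    have hord : addOrderOf (Point.some x y h) = d := by
      rw [addOrderOf_eq_iff (by omega)]
      exact ⟨hdP, fun m hm hm0 => hgen m (by omega) hm⟩
    rw [psiV_eq_zero_iff_dvd h hd1 hwd hmin n, ← hord, addOrderOf_dvd_iff_nsmul_eq_zero]
  · -- no zero at all: `P` has infinite order
    have hnz : ∀ k, 1 ≤ k → psiV W x y k ≠ 0 := fun k hk h0 => hex ⟨k, hk, h0⟩
    rcases Nat.eq_zero_or_pos n with hn | hn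
    · subst hn; simp
    · have hgen := nsmul_ne_zero_of_psiV_ne_zero hA h (d := n + 1) (fun k hk1 _ => hnz k hk1)
      constructor
      · intro h0; exact absurd h0 (hgen n hn (by omega))
      · intro h0; exact absurd h0 (hnz n hn)

/-- **Item 57**: `n • P = 0 ↔ ΨSqₙ(x(P)) = 0` for `n : ℕ`. -/
theorem nsmul_eq_zero_iff_eval_ΨSq {x y : K} (h : W.Nonsingular x y) (n : ℕ) :
    n • Point.some x y h = 0 ↔ (W.ΨSq (n : ℤ)).eval x = 0 := by
  rw [nsmul_eq_zero_iff_psiV h n, eval_ΨSq_eq_psiV_sq h.1, sq_eq_zero_iff]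

/-- **Item 57**: `n • P = 0 ↔ ΨSqₙ(x(P)) = 0` for `n : ℤ`. -/
theorem zsmul_eq_zero_iff_eval_ΨSq {x y : K} (h : W.Nonsingular x y) (n : ℤ) :
    n • Point.some x y h = 0 ↔ (W.ΨSq n).eval x = 0 := by
  rcases Int.eq_nat_or_neg n with ⟨k, rfl | rfl⟩
  · rw [natCast_zsmul]; exact nsmul_eq_zero_iff_eval_ΨSq h k
  · rw [neg_smul, neg_eq_zero, natCast_zsmul, WeierstrassCurve.ΨSq_neg]
    exact nsmul_eq_zero_iff_eval_ΨSq h k

/-- For odd `n`: `n • P = 0 ↔ preΨ'ₙ(x(P)) = 0`. -/
theorem nsmul_eq_zero_iff_eval_preΨ' {x y : K} (h : W.Nonsingular x y) {n : ℕ} (hn : ¬ Even n) :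
    n • Point.some x y h = 0 ↔ (W.preΨ' n).eval x = 0 := by
  rw [nsmul_eq_zero_iff_psiV h n, psiV_of_odd h.1 hn]

/-- For even `n`: `n • P = 0 ↔ preΨ'ₙ(x(P)) = 0 ∨ 2 • P = 0`. -/
theorem nsmul_eq_zero_iff_of_even {x y : K} (h : W.Nonsingular x y) {n : ℕ} (hn : Even n) :
    n • Point.some x y h = 0 ↔ (W.preΨ' n).eval x = 0 ∨ 2 • Point.some x y h = 0 := by
  rw [nsmul_eq_zero_iff_psiV h n, nsmul_eq_zero_iff_psiV h 2, psiV_eq W h.1, if_pos hn, psiV_two,
    mul_eq_zero]

end Fermat.Agent.Lib.TorsionGen
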