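/-
Lib item 57 / item 62, helper46: the multiplication formula `x(nP) ΨSqₙ(x) = Φₙ(x)` for points of
large order, and coprimality of `Φₙ`, `ΨSqₙ` at points.
-/
import Fermat.Agent.Lib.TorsionGen.General

set_option autoImplicit false

namespace Fermat.Agent.Lib.TorsionGen

open WeierstrassCurve WeierstrassCurve.Affine Polynomial

variable {K : Type*} [Field K] {W : WeierstrassCurve.Affine K}

/-- `Φₙ(x) = x ψₙ(P)² - ψₙ₊₁(P) ψₙ₋₁(P)` on the curve. -/
lemma eval_Φ_eq {x y : K} (h : W.Equation x y) {n : ℕ} (hn : 1 ≤ n) :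
    (W.Φ (n : ℤ)).eval x =
      x * psiV W x y n ^ 2 - psiV W x y (n + 1) * psiV W x y (n - 1) := by
  obtain ⟨k, rfl⟩ : ∃ k, n = k + 1 := ⟨n - 1, by omega⟩
  have e : ((k + 1 : ℕ) : ℤ) = (k : ℤ) + 1 := by push_cast; ring
  rw [e, WeierstrassCurve.Φ_ofNat]
  have e1 : Even (k + 1) ↔ ¬ Even k := Nat.even_add_one
  have e2 : Even (k + 1 + 1) ↔ Even k := by
    rw [Nat.even_add_one, Nat.even_add_one, not_not]
  simp only [eval_sub, eval_mul, eval_X, eval_pow, psiV_eq W h, Nat.add_sub_cancel, e1, e2]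
  by_cases hk : Even k <;> simp [hk, eval_Ψ₂Sq_eq_sq W h] <;> ring

variable [DecidableEq K]

/-- **Multiplication formula** for points `P` with `k • P ≠ 0` for `1 ≤ k ≤ n`. -/
theorem xc_nsmul_mul_eval_ΨSq {x y : K} (h : W.Nonsingular x y) {n : ℕ} (hn : 1 ≤ n)
    (hL : ∀ k, 1 ≤ k → k ≤ n → k • Point.some x y h ≠ 0) :
    Torsion.H11.xc W (n • Point.some x y h) * (W.ΨSq (n : ℤ)).eval x = (W.Φ (n : ℤ)).eval x := by
  have := Torsion.H11.xc_smul_sub W h n n hL hn le_rfl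
  rw [eval_Φ_eq h.1 hn, eval_ΨSq_eq_psiV_sq h.1]
  simp only [psiV]
  linear_combination this

/-- `Φₙ` and `ΨSqₙ` have no common zero at the `x`-coordinate of a nonsingular point. -/
theorem not_eval_Φ_eval_ΨSq_eq_zero {x y : K} (h : W.Nonsingular x y) {n : ℕ} (hn : 1 ≤ n)
    (hΦ : (W.Φ (n : ℤ)).eval x = 0) (hΨ : (W.ΨSq (n : ℤ)).eval x = 0) : False := by
  classical
  rw [eval_ΨSq_eq_psiV_sq h.1, sq_eq_zero_iff] at hΨ
  rw [eval_Φ_eq h.1 hn, hΨ] at hΦ
  have h2 : psiV W x y (n + 1) * psiV W x y (n - 1) = 0 := by linear_combination -hΦ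
  -- the first zero
  have hex : ∃ k, 1 ≤ k ∧ psiV W x y k = 0 := ⟨n, hn, hΨ⟩
  set d := Nat.find hex with hd
  obtain ⟨hd1, hwd⟩ : 1 ≤ d ∧ psiV W x y d = 0 := Nat.find_spec hex
  have hmin : ∀ k, 1 ≤ k → k < d → psiV W x y k ≠ 0 :=
    fun k hk1 hkd h0 => Nat.find_min hex hkd ⟨hk1, h0⟩
  have hd2 : 2 ≤ d := by
    rcases Nat.lt_or_ge d 2 with h' | h'
    · have : d = 1 := by omega
      rw [this, psiV_one] at hwd
      exact absurd hwd one_ne_zero
    · exact h'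
  have hdn : d ∣ n := (psiV_eq_zero_iff_dvd h hd1 hwd hmin n).mp hΨ
  rcases mul_eq_zero.mp h2 with h3 | h3
  · have hdn1 : d ∣ n + 1 := (psiV_eq_zero_iff_dvd h hd1 hwd hmin (n + 1)).mp h3
    have : d ∣ 1 := (Nat.dvd_add_right hdn).mp hdn1
    have := Nat.le_of_dvd one_pos this
    omega
  · have hdn1 : d ∣ n - 1 := (psiV_eq_zero_iff_dvd h hd1 hwd hmin (n - 1)).mp h3
    have : d ∣ 1 := by
      have e : n = (n - 1) + 1 := by omega
      rw [e] at hdn
      exact (Nat.dvd_add_right hdn1).mp hdn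
    have := Nat.le_of_dvd one_pos this
    omega

end Fermat.Agent.Lib.TorsionGen
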