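/-
Lib item 57 / item 62, helper46: EXACT count of the `n`-torsion.
For an elliptic curve over an algebraically closed field `K` and `n` with `(n : K) ≠ 0`:
  `#E[n] = n²`.
Proof by division polynomials only: for generic `c`, the polynomial `Φₙ - c ΨSqₙ` has `n²` simple
roots (its Wronskian has leading coefficient `n²`), and they are in bijection with the points `Q`
with `n • Q = R`, where `x(R) = c`.
-/
import Fermat.Agent.Lib.TorsionGen.MulFormula
import Mathlib.FieldTheory.IsAlgClosed.Basic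
import Mathlib.Algebra.Polynomial.Derivative
import Mathlib.Algebra.Polynomial.FieldDivision
import Mathlib.Algebra.CharP.Basic
import Mathlib.Data.Nat.Prime.Infinite

set_option autoImplicit false

namespace Fermat.Agent.Lib.TorsionGen

open WeierstrassCurve WeierstrassCurve.Affine Polynomial

section Wronskian

variable {K : Type*} [Field K]

/-- The top coefficient of the Wronskian `N' D - N D'`. -/
lemma coeff_wronskian {N D : K[X]} {e : ℕ} (he : 2 ≤ e) (hN : N.natDegree ≤ e)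
    (hNc : N.coeff e = 1) (hD : D.natDegree ≤ e - 1) :
    (derivative N * D - N * derivative D).coeff (2 * e - 2) = D.coeff (e - 1) := by
  have hN' : (derivative N).natDegree ≤ e - 1 :=
    (natDegree_derivative_le N).trans (by omega)
  have hD' : (derivative D).natDegree ≤ e - 2 :=
    (natDegree_derivative_le D).trans (by omega)
  have e1 : 2 * e - 2 = (e - 1) + (e - 1) := by omega
  have e2 : 2 * e - 2 = e + (e - 2) := by omega
  rw [coeff_sub]
  nth_rw 1 [e1]
  rw [coeff_mul_add_eq_of_natDegree_le hN' hD, e2, coeff_mul_add_eq_of_natDegree_le hN hD',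
    coeff_derivative, coeff_derivative]
  have e3 : e - 1 + 1 = e := by omega
  have e4 : e - 2 + 1 = e - 1 := by omega
  rw [e3, e4, hNc]
  have e5 : ((e - 1 : ℕ) : K) = (e : K) - 1 := by
    rw [Nat.cast_sub (by omega)]; simp
  have e6 : ((e - 2 : ℕ) : K) = (e : K) - 2 := by
    rw [Nat.cast_sub (by omega)]; simp
  rw [e5, e6]
  ring

end Wronskian

variable {K : Type*} [Field K] {W : WeierstrassCurve.Affine K}

/-- The polynomial `Φₙ - c ΨSqₙ`, whose roots are the `x(Q)` with `x(n Q) = c`. -/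
noncomputable def fibPoly (W : WeierstrassCurve.Affine K) (n : ℕ) (c : K) : K[X] :=
  W.Φ (n : ℤ) - C c * W.ΨSq (n : ℤ)

lemma natDegree_C_mul_ΨSq_lt (n : ℕ) (hn : 1 ≤ n) (c : K) :
    (C c * W.ΨSq (n : ℤ)).natDegree < n ^ 2 := by
  have h1 : (C c * W.ΨSq (n : ℤ)).natDegree ≤ (W.ΨSq (n : ℤ)).natDegree :=
    natDegree_C_mul_le _ _
  have h2 := W.natDegree_ΨSq_le (n : ℤ)
  rw [Int.natAbs_natCast] at h2
  have : 1 ≤ n ^ 2 := Nat.one_le_pow _ _ hn
  omega

lemma natDegree_fibPoly (n : ℕ) (hn : 1 ≤ n) (c : K) : (fibPoly W n c).natDegree = n ^ 2 := by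
  have h1 : (W.Φ (n : ℤ)).natDegree = n ^ 2 := by
    rw [W.natDegree_Φ, Int.natAbs_natCast]
  rw [fibPoly, natDegree_sub_eq_left_of_natDegree_lt, h1]
  rw [h1]
  exact natDegree_C_mul_ΨSq_lt n hn c

lemma fibPoly_ne_zero (n : ℕ) (hn : 1 ≤ n) (c : K) : fibPoly W n c ≠ 0 := by
  intro h
  have := natDegree_fibPoly (W := W) n hn c
  rw [h, natDegree_zero] at this
  have : 1 ≤ n ^ 2 := Nat.one_le_pow _ _ hn
  omega

lemma isRoot_fibPoly_iff (n : ℕ) (c x : K) :
    (fibPoly W n c).IsRoot x ↔ (W.Φ (n : ℤ)).eval x = c * (W.ΨSq (n : ℤ)).eval x := by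
  rw [IsRoot, fibPoly, eval_sub, eval_mul, eval_C, sub_eq_zero]

/-- The Wronskian of `Φₙ`, `ΨSqₙ`. -/
noncomputable def wrPoly (W : WeierstrassCurve.Affine K) (n : ℕ) : K[X] :=
  derivative (W.Φ (n : ℤ)) * W.ΨSq (n : ℤ) - W.Φ (n : ℤ) * derivative (W.ΨSq (n : ℤ))

lemma wrPoly_ne_zero {n : ℕ} (hn : 2 ≤ n) (hnK : (n : K) ≠ 0) : wrPoly W n ≠ 0 := by
  intro h
  have he : 2 ≤ n ^ 2 := by nlinarith
  have h1 := coeff_wronskian (N := W.Φ (n : ℤ)) (D := W.ΨSq (n : ℤ)) (e := n ^ 2) he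
    (by have := W.natDegree_Φ_le (n : ℤ); rwa [Int.natAbs_natCast] at this)
    (by have := W.coeff_Φ (n : ℤ); rwa [Int.natAbs_natCast] at this)
    (by have := W.natDegree_ΨSq_le (n : ℤ); rwa [Int.natAbs_natCast] at this)
  have h2 := W.coeff_ΨSq (n : ℤ)
  rw [Int.natAbs_natCast] at h2
  rw [h2] at h1
  have h3 : (wrPoly W n).coeff (2 * n ^ 2 - 2) = 0 := by rw [h, coeff_zero]
  rw [wrPoly, h1] at h3
  have : ((n : ℤ) : K) ^ 2 ≠ 0 := pow_ne_zero 2 (by simpa using hnK)
  exact this h3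

/-- A root `x` of `Φₙ - c ΨSqₙ` with nonvanishing Wronskian is simple. -/
lemma derivative_fibPoly_ne_zero {n : ℕ} {c x : K} (hx : (fibPoly W n c).IsRoot x)
    (hw : (wrPoly W n).eval x ≠ 0) : (derivative (fibPoly W n c)).eval x ≠ 0 := by
  intro h
  apply hw
  rw [isRoot_fibPoly_iff] at hx
  rw [fibPoly, derivative_sub, derivative_mul, derivative_C, zero_mul, zero_add, eval_sub,
    eval_mul, eval_C] at h
  rw [wrPoly, eval_sub, eval_mul, eval_mul, hx]
  have : eval x (derivative (W.Φ (n : ℤ))) = c * eval x (derivative (W.ΨSq (n : ℤ))) := by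
    linear_combination h
  rw [this]; ring

section Points

variable [DecidableEq K]

/-- A nonzero point killed by a prime `q` is not killed by `k` with `1 ≤ k < q`. -/
lemma nsmul_ne_zero_of_prime {P : W.Point} (hP : P ≠ 0) {q : ℕ} (hq : q.Prime)
    (hqP : q • P = 0) {k : ℕ} (hk1 : 1 ≤ k) (hkq : k < q) : k • P ≠ 0 := by
  intro hk0
  have h1 : addOrderOf P ∣ q := addOrderOf_dvd_of_nsmul_eq_zero hqP
  have h2 : addOrderOf P ∣ k := addOrderOf_dvd_of_nsmul_eq_zero hk0
  rcases (Nat.dvd_prime hq).mp h1 with h3 | h3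
  · exact hP (AddMonoid.addOrderOf_eq_one_iff.mp h3)
  · rw [h3] at h2
    exact absurd (Nat.le_of_dvd (by omega) h2) (by omega)

/-- Over an algebraically closed field there is a point of order `q` for every odd prime `q`
which is nonzero in the field. -/
lemma exists_point_of_prime_order [IsAlgClosed K] (hΔ : W.Δ ≠ 0) {q : ℕ} (hq : q.Prime)
    (hq2 : q ≠ 2) (hqK : (q : K) ≠ 0) :
    ∃ (x y : K) (h : W.Nonsingular x y), q • Point.some x y h = 0 := by
  have hodd : ¬ Even q := fun he => hq2 ((Nat.Prime.even_iff hq).mp he)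
  have hdeg : (W.preΨ' q).degree ≠ 0 := by
    rw [degree_eq_natDegree (W.preΨ'_ne_zero hqK), W.natDegree_preΨ' hqK, if_neg hodd]
    have : 3 ≤ q := by have := hq.two_le; omega
    have h9 : 9 ≤ q ^ 2 := by nlinarith
    have : 1 ≤ (q ^ 2 - 1) / 2 := by omega
    exact_mod_cast (by omega : (q ^ 2 - 1) / 2 ≠ 0)
  obtain ⟨x, hx⟩ := IsAlgClosed.exists_root (W.preΨ' q) hdeg
  obtain ⟨y, h, -⟩ := Torsion35.exists_point_of_x W hΔ x
  exact ⟨x, y, h, (nsmul_eq_zero_iff_eval_preΨ' h hodd).mpr hx⟩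

/-- There is a prime which is nonzero in `K`, odd, and larger than `k`. -/
lemma exists_prime_gt_ne_zero (K : Type*) [Field K] (k : ℕ) :
    ∃ q : ℕ, q.Prime ∧ q ≠ 2 ∧ k < q ∧ (q : K) ≠ 0 := by
  obtain ⟨q, hqge, hq⟩ := Nat.exists_infinite_primes (max k (max (ringChar K) 2) + 1)
  refine ⟨q, hq, ?_, ?_, ?_⟩
  · have := le_max_right k (max (ringChar K) 2)
    have := le_max_right (ringChar K) 2
    omega
  · have := le_max_left k (max (ringChar K) 2)
    omega
  · intro h0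
    have hdvd : ringChar K ∣ q := (ringChar.spec K q).mp h0
    rcases (Nat.dvd_prime hq).mp hdvd with h1 | h1
    · have : CharP K 1 := by rw [← h1]; exact ringChar.charP K
      exact (CharP.char_ne_one K 1) rfl
    · have := le_max_right k (max (ringChar K) 2)
      have := le_max_left (ringChar K) 2
      omega

/-- `ΨSqₖ ≠ 0` for all `k ≥ 1`, in every characteristic. -/
lemma ΨSq_ne_zero_of_Δ [IsAlgClosed K] (hΔ : W.Δ ≠ 0) {k : ℕ} (hk : 1 ≤ k) :
    W.ΨSq (k : ℤ) ≠ 0 := by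
  obtain ⟨q, hq, hq2, hkq, hqK⟩ := exists_prime_gt_ne_zero K k
  obtain ⟨x, y, h, hqP⟩ := exists_point_of_prime_order hΔ hq hq2 hqK
  have hk0 := nsmul_ne_zero_of_prime (Point.some_ne_zero h) hq hqP hk hkq
  intro h0
  apply hk0
  rw [nsmul_eq_zero_iff_eval_ΨSq h k, h0, eval_zero]

end Points

section Count

variable [DecidableEq K] [IsAlgClosed K]

/-- The polynomial whose roots have to be avoided. -/
noncomputable def auxPoly (W : WeierstrassCurve.Affine K) (n : ℕ) : K[X] :=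
  wrPoly W n * ∏ k ∈ Finset.Icc 1 n, W.ΨSq (k : ℤ)

lemma prod_ΨSq_ne_zero (hΔ : W.Δ ≠ 0) (n : ℕ) : ∏ k ∈ Finset.Icc 1 n, W.ΨSq (k : ℤ) ≠ 0 := by
  rw [Finset.prod_ne_zero_iff]
  intro k hk
  exact ΨSq_ne_zero_of_Δ hΔ (Finset.mem_Icc.mp hk).1

lemma auxPoly_ne_zero (hΔ : W.Δ ≠ 0) {n : ℕ} (hn : 2 ≤ n) (hnK : (n : K) ≠ 0) :
    auxPoly W n ≠ 0 :=
  mul_ne_zero (wrPoly_ne_zero hn hnK) (prod_ΨSq_ne_zero hΔ n)

/-- Genericity of `c`. -/
structure IsGood (W : WeierstrassCurve.Affine K) (n : ℕ) (c : K) : Prop where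
  root : ∀ x, (fibPoly W n c).IsRoot x → (auxPoly W n).eval x ≠ 0
  self : ∀ k, 1 ≤ k → k ≤ n → (W.ΨSq (k : ℤ)).eval c ≠ 0

lemma exists_isGood (hΔ : W.Δ ≠ 0) {n : ℕ} (hn : 2 ≤ n) (hnK : (n : K) ≠ 0) :
    ∃ c, IsGood W n c := by
  classical
  have : Infinite K := IsAlgClosed.instInfinite
  set Bad : Finset K :=
    ((auxPoly W n).roots.toFinset.image
      (fun x => (W.Φ (n : ℤ)).eval x / (W.ΨSq (n : ℤ)).eval x)) ∪
    (∏ k ∈ Finset.Icc 1 n, W.ΨSq (k : ℤ)).roots.toFinset with hBad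
  obtain ⟨c, hc⟩ := Infinite.exists_notMem_finset Bad
  rw [hBad, Finset.mem_union, not_or] at hc
  obtain ⟨hc1, hc2⟩ := hc
  refine ⟨c, ?_, ?_⟩
  · intro x hx h0
    apply hc1
    rw [Finset.mem_image]
    refine ⟨x, ?_, ?_⟩
    · rw [Multiset.mem_toFinset, mem_roots (auxPoly_ne_zero hΔ hn hnK)]
      exact h0
    · rw [isRoot_fibPoly_iff] at hx
      have hD : (W.ΨSq (n : ℤ)).eval x ≠ 0 := by
        intro hD
        rw [hD, mul_zero] at hx
        obtain ⟨y, h, -⟩ := Torsion35.exists_point_of_x W hΔ x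
        exact not_eval_Φ_eval_ΨSq_eq_zero h (by omega) hx hD
      rw [hx, mul_div_assoc, div_self hD, mul_one]
  · intro k hk1 hkn h0
    apply hc2
    rw [Multiset.mem_toFinset, mem_roots (prod_ΨSq_ne_zero hΔ n), IsRoot, eval_prod]
    exact Finset.prod_eq_zero (Finset.mem_Icc.mpr ⟨hk1, hkn⟩) h0

omit [DecidableEq K] [IsAlgClosed K] in
lemma IsGood.eval_wrPoly_ne_zero {n : ℕ} {c : K} (hc : IsGood W n c) {x : K}
    (hx : (fibPoly W n c).IsRoot x) : (wrPoly W n).eval x ≠ 0 := by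
  have := hc.root x hx
  rw [auxPoly, eval_mul] at this
  exact left_ne_zero_of_mul this

omit [DecidableEq K] [IsAlgClosed K] in
lemma IsGood.eval_ΨSq_ne_zero {n : ℕ} {c : K} (hc : IsGood W n c) {x : K}
    (hx : (fibPoly W n c).IsRoot x) {k : ℕ} (hk1 : 1 ≤ k) (hkn : k ≤ n) :
    (W.ΨSq (k : ℤ)).eval x ≠ 0 := by
  have := hc.root x hx
  rw [auxPoly, eval_mul, eval_prod] at this
  have h2 := right_ne_zero_of_mul this
  rw [Finset.prod_ne_zero_iff] at h2
  exact h2 k (Finset.mem_Icc.mpr ⟨hk1, hkn⟩)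

/-- For generic `c`, `Φₙ - c ΨSqₙ` has exactly `n²` roots. -/
lemma IsGood.card_roots {n : ℕ} (hn : 1 ≤ n) {c : K} (hc : IsGood W n c) :
    (fibPoly W n c).roots.toFinset.card = n ^ 2 := by
  have hnd : (fibPoly W n c).roots.Nodup := by
    rw [Multiset.nodup_iff_count_le_one]
    intro a
    rw [count_roots]
    by_contra hlt
    have h1 : 1 < (fibPoly W n c).rootMultiplicity a := by omega
    rw [one_lt_rootMultiplicity_iff_isRoot (fibPoly_ne_zero n hn c)] at h1
    exact derivative_fibPoly_ne_zero h1.1 (hc.eval_wrPoly_ne_zero h1.1) h1.2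
  rw [Multiset.toFinset_card_of_nodup hnd, IsAlgClosed.card_roots_eq_natDegree,
    natDegree_fibPoly n hn c]

omit [IsAlgClosed K] in
open Torsion.H11 in
/-- For generic `c` and a point `Q` above a root of `Φₙ - c ΨSqₙ`: `x(n Q) = c`. -/
lemma IsGood.xc_nsmul {n : ℕ} (hn : 1 ≤ n) {c : K} (hc : IsGood W n c) {x y : K}
    (h : W.Nonsingular x y) (hx : (fibPoly W n c).IsRoot x) :
    n • Point.some x y h ≠ 0 ∧ xc W (n • Point.some x y h) = c := by
  have hL : ∀ k, 1 ≤ k → k ≤ n → k • Point.some x y h ≠ 0 := by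
    intro k hk1 hkn h0
    exact hc.eval_ΨSq_ne_zero hx hk1 hkn ((nsmul_eq_zero_iff_eval_ΨSq h k).mp h0)
  refine ⟨hL n hn le_rfl, ?_⟩
  have h1 := xc_nsmul_mul_eval_ΨSq h hn hL
  rw [(isRoot_fibPoly_iff n c x).mp hx] at h1
  exact mul_right_cancel₀ (hc.eval_ΨSq_ne_zero hx hn le_rfl) h1

open Torsion.H11 in
/-- For generic `c` and `R` above `c`, the fibre `{Q | n • Q = R}` has exactly `n²` elements. -/
theorem IsGood.card_fibre (hΔ : W.Δ ≠ 0) {n : ℕ} (hn : 2 ≤ n) {c : K} (hc : IsGood W n c)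
    {yR : K} (hR : W.Nonsingular c yR) :
    Nat.card {Q : W.Point // n • Q = Point.some c yR hR} = n ^ 2 := by
  classical
  set R : W.Point := Point.some c yR hR with hRdef
  have hR0 : R ≠ 0 := Point.some_ne_zero hR
  have hkR : ∀ k, 1 ≤ k → k ≤ n → k • R ≠ 0 := by
    intro k hk1 hkn h0
    exact hc.self k hk1 hkn ((nsmul_eq_zero_iff_eval_ΨSq hR k).mp h0)
  have hRneg : R ≠ -R := by
    intro h
    apply hkR 2 (by norm_num) hn
    rw [two_nsmul]
    nth_rw 1 [h]
    exact neg_add_cancel R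
  -- the map to the roots
  have hmem : ∀ Q : {Q : W.Point // n • Q = R},
      xc W Q.1 ∈ (fibPoly W n c).roots.toFinset := by
    rintro ⟨Q, hQ⟩
    rw [Multiset.mem_toFinset, mem_roots (fibPoly_ne_zero n (by omega) c)]
    cases Q with
    | zero =>
      exfalso
      apply hR0
      rw [← hQ]
      exact smul_zero n
    | some x y h =>
      have hL : ∀ k, 1 ≤ k → k ≤ n → k • Point.some x y h ≠ 0 := by
        intro k hk1 hkn h0
        apply hkR k hk1 hkn
        rw [← hQ, smul_comm, h0, smul_zero]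
      have h1 := xc_nsmul_mul_eval_ΨSq h (by omega) hL
      rw [hQ] at h1
      rw [xc_some, isRoot_fibPoly_iff]
      exact h1.symm
  let f : {Q : W.Point // n • Q = R} → {x : K // x ∈ (fibPoly W n c).roots.toFinset} :=
    fun Q => ⟨xc W Q.1, hmem Q⟩
  have hQ0 : ∀ Q : {Q : W.Point // n • Q = R}, Q.1 ≠ 0 := by
    rintro ⟨Q, hQ⟩ h0
    apply hR0
    rw [← hQ]
    simp only at h0
    rw [h0]
    exact smul_zero n
  have hinj : Function.Injective f := by
    intro Q₁ Q₂ h12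
    have hx : xc W Q₁.1 = xc W Q₂.1 := congrArg Subtype.val h12
    rcases eq_or_eq_neg_of_xc_eq W (hQ0 Q₁) (hQ0 Q₂) hx with h | h
    · exact Subtype.ext h
    · exfalso
      apply hRneg
      have h1 := Q₁.2
      rw [h, smul_neg, Q₂.2] at h1
      exact h1.symm
  have hsurj : Function.Surjective f := by
    rintro ⟨x, hx⟩
    rw [Multiset.mem_toFinset, mem_roots (fibPoly_ne_zero n (by omega) c)] at hx
    obtain ⟨y, h, -⟩ := Torsion35.exists_point_of_x W hΔ x
    obtain ⟨hn0, hxc⟩ := hc.xc_nsmul (by omega) h hx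
    have hxc' : xc W (n • Point.some x y h) = xc W R := by rw [hxc, hRdef, xc_some]
    rcases eq_or_eq_neg_of_xc_eq W hn0 hR0 hxc' with h1 | h1
    · exact ⟨⟨Point.some x y h, h1⟩, Subtype.ext (by simp [f])⟩
    · refine ⟨⟨-Point.some x y h, by rw [smul_neg, h1, neg_neg]⟩, Subtype.ext ?_⟩
      simp only [f]
      rw [xc_neg, xc_some]
  rw [Nat.card_eq_of_bijective f ⟨hinj, hsurj⟩, Nat.card_eq_fintype_card, Fintype.card_coe,
    hc.card_roots (by omega)]

/-- **Exact count of the `n`-torsion**: `#E[n] = n²` over an algebraically closed field in which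
`n ≠ 0`. -/
theorem card_nsmul_eq_zero (hΔ : W.Δ ≠ 0) {n : ℕ} (hnK : (n : K) ≠ 0) :
    Nat.card {P : W.Point // n • P = 0} = n ^ 2 := by
  classical
  have hn1 : 1 ≤ n := by
    rcases Nat.eq_zero_or_pos n with h | h
    · subst h; simp at hnK
    · exact h
  rcases Nat.lt_or_ge n 2 with hn2 | hn2
  · obtain rfl : n = 1 := by omega
    have : Nat.card {P : W.Point // 1 • P = 0} = 1 := by
      rw [Nat.card_eq_one_iff_unique]
      refine ⟨⟨?_⟩, ⟨⟨0, by simp⟩⟩⟩
      rintro ⟨P, hP⟩ ⟨Q, hQ⟩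
      rw [one_nsmul] at hP hQ
      exact Subtype.ext (hP.trans hQ.symm)
    rw [this]; norm_num
  · obtain ⟨c, hc⟩ := exists_isGood hΔ hn2 hnK
    obtain ⟨yR, hR, -⟩ := Torsion35.exists_point_of_x W hΔ c
    have hcard := hc.card_fibre hΔ hn2 hR
    -- the fibre is nonempty
    have hne : Nonempty {Q : W.Point // n • Q = Point.some c yR hR} := by
      by_contra hempty
      rw [not_nonempty_iff] at hempty
      rw [Nat.card_of_isEmpty] at hcard
      have : 1 ≤ n ^ 2 := Nat.one_le_pow _ _ hn1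
      omega
    obtain ⟨Q₀, hQ₀⟩ := hne
    rw [← hcard]
    apply Nat.card_congr
    refine Equiv.subtypeEquiv (Equiv.addLeft Q₀) ?_
    intro P
    simp only [Equiv.coe_addLeft, smul_add, hQ₀]
    constructor
    · intro h; rw [h, add_zero]
    · intro h
      exact add_left_cancel (a := Point.some c yR hR) (by rw [h, add_zero])

/-- `#E[n] = n²` in terms of `Submodule.torsionBy`. -/
theorem card_torsionBy_eq (hΔ : W.Δ ≠ 0) {n : ℕ} (hnK : (n : K) ≠ 0) :
    Nat.card (Submodule.torsionBy ℤ W.Point (n : ℤ)) = n ^ 2 := by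
  rw [← card_nsmul_eq_zero hΔ hnK]
  apply Nat.card_congr
  refine Equiv.subtypeEquivRight ?_
  intro P
  rw [Submodule.mem_torsionBy_iff, natCast_zsmul]

end Count

end Fermat.Agent.Lib.TorsionGen
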